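/-
S20, component (A1): Ramanujan's identities for `E₄`, `E₆`, `Δ` (level one).
Route: `serreDerivative k F` of a level-one form is a level-one form of weight `k + 2`
(Mathlib: `Derivative.serreDerivative_slash_invariant`, `serreDerivative_mdifferentiable`, `isBoundedAtImInfty_E2`;
`D F = q d/dq` of the cusp function, so `D F` vanishes at `i∞`); then `M₆ = ℂ E₆`, `M₈ = ℂ E₄²` and compare
the values at `i∞`.  `D Δ = E₂ Δ` comes directly from Mathlib's `logDeriv_eta_eq_E2`.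
-/
import Mathlib.NumberTheory.ModularForms.LevelOne.DimensionFormula
import Mathlib.NumberTheory.ModularForms.Derivative

set_option autoImplicit false

namespace Fermat.Agent.S20

open UpperHalfPlane ModularForm EisensteinSeries Filter
open scoped MatrixGroups ModularForm Manifold Derivative Topology

local notation "𝕢" => Function.Periodic.qParam

lemma ramanujanAux_hasDerivAt_qParam (z : ℂ) :
    HasDerivAt (𝕢 1) (2 * Real.pi * Complex.I * 𝕢 1 z) z := by
  have h : HasDerivAt (fun w : ℂ => 2 * Real.pi * Complex.I * w / ((1 : ℝ) : ℂ))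
      (2 * Real.pi * Complex.I) z := by
    have := (hasDerivAt_id z).const_mul (2 * (Real.pi : ℂ) * Complex.I)
    simpa using this
  have h2 := h.cexp
  have h3 : (fun w : ℂ => Complex.exp (2 * Real.pi * Complex.I * w / ((1 : ℝ) : ℂ))) = 𝕢 1 := by
    funext w
    rfl
  rw [h3] at h2
  have h4 : Complex.exp (2 * Real.pi * Complex.I * z / ((1 : ℝ) : ℂ)) * (2 * Real.pi * Complex.I)
      = 2 * Real.pi * Complex.I * 𝕢 1 z := by
    rw [mul_comm]
    rfl
  rw [h4] at h2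
  exact h2

/-- For a holomorphic `1`-periodic function bounded at `i∞`, `D F = q · (d/dq) F`. -/
lemma ramanujanAux_D_eq {F : ℍ → ℂ} (hper : Function.Periodic (F ∘ ofComplex) 1)
    (hhol : MDiff F) (hbdd : IsBoundedAtImInfty F) (z : ℍ) :
    D F z = 𝕢 1 z * deriv (cuspFunction 1 F) (𝕢 1 z) := by
  have h1 : (F ∘ ofComplex) =ᶠ[𝓝 (z : ℂ)] (cuspFunction 1 F) ∘ (𝕢 1) := by
    filter_upwards [isOpen_upperHalfPlaneSet.mem_nhds z.im_pos] with w hw
    have := eq_cuspFunction (f := F) ⟨w, hw⟩ one_ne_zero hper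
    simp only [Function.comp_apply, ofComplex_apply_of_im_pos hw]
    exact this.symm
  have hq : ‖𝕢 1 (z : ℂ)‖ < 1 := Function.Periodic.norm_qParam_lt_one one_pos z.im_pos
  have hc : DifferentiableAt ℂ (cuspFunction 1 F) (𝕢 1 (z : ℂ)) :=
    differentiableAt_cuspFunction one_pos hper hhol hbdd hq
  have h2 : HasDerivAt ((cuspFunction 1 F) ∘ (𝕢 1))
      (deriv (cuspFunction 1 F) (𝕢 1 (z : ℂ)) * (2 * Real.pi * Complex.I * 𝕢 1 (z : ℂ))) (z : ℂ) :=
    hc.hasDerivAt.comp (z : ℂ) (ramanujanAux_hasDerivAt_qParam (z : ℂ))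
  rw [Derivative.normalizedDerivOfComplex, h1.deriv_eq, h2.deriv]
  have hpi : (2 * (Real.pi : ℂ) * Complex.I) ≠ 0 := by
    simp [Real.pi_ne_zero]
  field_simp

/-- For a holomorphic `1`-periodic function bounded at `i∞`, `D F` vanishes at `i∞`. -/
lemma ramanujanAux_isZeroAtImInfty_D {F : ℍ → ℂ} (hper : Function.Periodic (F ∘ ofComplex) 1)
    (hhol : MDiff F) (hbdd : IsBoundedAtImInfty F) : IsZeroAtImInfty (D F) := by
  have han : AnalyticAt ℂ (cuspFunction 1 F) 0 :=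
    analyticAt_cuspFunction_zero one_pos hper hhol hbdd
  have hcont : ContinuousAt (deriv (cuspFunction 1 F)) 0 := han.deriv.continuousAt
  have hq : Tendsto (fun τ : ℍ => 𝕢 1 (τ : ℂ)) atImInfty (𝓝 0) := qParam_tendsto_atImInfty one_pos
  have h1 : Tendsto (fun τ : ℍ => 𝕢 1 (τ : ℂ) * deriv (cuspFunction 1 F) (𝕢 1 (τ : ℂ))) atImInfty
      (𝓝 (0 * deriv (cuspFunction 1 F) 0)) :=
    hq.mul (hcont.tendsto.comp hq)
  rw [zero_mul] at h1
  refine h1.congr fun τ => ?_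
  exact (ramanujanAux_D_eq hper hhol hbdd τ).symm

/-- A holomorphic `1`-periodic function bounded at `i∞` tends to its `0`-th `q`-coefficient. -/
lemma ramanujanAux_tendsto {F : ℍ → ℂ} (hper : Function.Periodic (F ∘ ofComplex) 1)
    (hhol : MDiff F) (hbdd : IsBoundedAtImInfty F) :
    Tendsto F atImInfty (𝓝 ((qExpansion 1 F).coeff 0)) := by
  have han : AnalyticAt ℂ (cuspFunction 1 F) 0 :=
    analyticAt_cuspFunction_zero one_pos hper hhol hbdd
  have hq : Tendsto (fun τ : ℍ => 𝕢 1 (τ : ℂ)) atImInfty (𝓝 0) := qParam_tendsto_atImInfty one_pos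
  have h1 : Tendsto (fun τ : ℍ => cuspFunction 1 F (𝕢 1 (τ : ℂ))) atImInfty
      (𝓝 (cuspFunction 1 F 0)) := han.continuousAt.tendsto.comp hq
  have h0 : (qExpansion 1 F).coeff 0 = cuspFunction 1 F 0 := by
    simp [qExpansion_coeff]
  rw [h0]
  refine h1.congr fun τ => ?_
  exact eq_cuspFunction τ one_ne_zero hper

lemma ramanujanAux_periodic_MF {k : ℤ} (F : ModularForm 𝒮ℒ k) :
    Function.Periodic ((F : ℍ → ℂ) ∘ ofComplex) 1 := by
  have := SlashInvariantFormClass.periodic_comp_ofComplex (h := 1) F one_mem_strictPeriods_SL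
  simpa using this

lemma ramanujanAux_bdd_MF {k : ℤ} (F : ModularForm 𝒮ℒ k) : IsBoundedAtImInfty (F : ℍ → ℂ) :=
  ModularFormClass.bdd_at_infty F

lemma ramanujanAux_tendsto_MF {k : ℤ} (F : ModularForm 𝒮ℒ k) :
    Tendsto (F : ℍ → ℂ) atImInfty (𝓝 ((qExpansion 1 F).coeff 0)) :=
  ramanujanAux_tendsto (ramanujanAux_periodic_MF F) F.holo' (ramanujanAux_bdd_MF F)

lemma ramanujanAux_tendsto_E {k : ℕ} (hk : 3 ≤ k) (hk2 : Even k) :
    Tendsto (E hk : ℍ → ℂ) atImInfty (𝓝 1) := by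
  have := ramanujanAux_tendsto_MF (E hk)
  rwa [E_qExpansion_coeff_zero hk hk2] at this

lemma ramanujanAux_periodic_E2 : Function.Periodic (E2 ∘ ofComplex) 1 := by
  intro w
  by_cases hw : 0 < w.im
  · have hw1 : 0 < (w + 1).im := by simpa using hw
    simp only [Function.comp_apply, ofComplex_apply_of_im_pos hw1, ofComplex_apply_of_im_pos hw]
    rw [E2_eq_tsum_cexp, E2_eq_tsum_cexp]
    have : Complex.exp (2 * Real.pi * Complex.I * ((⟨w + 1, hw1⟩ : ℍ) : ℂ)) =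
        Complex.exp (2 * Real.pi * Complex.I * ((⟨w, hw⟩ : ℍ) : ℂ)) := by
      show Complex.exp (2 * Real.pi * Complex.I * (w + 1)) = Complex.exp (2 * Real.pi * Complex.I * w)
      rw [mul_add, Complex.exp_add, mul_one, Complex.exp_two_pi_mul_I, mul_one]
    rw [this]
  · have hw' : w.im ≤ 0 := not_lt.mp hw
    have hw1 : (w + 1).im ≤ 0 := by simpa using hw'
    simp [ofComplex_apply_of_im_nonpos hw1, ofComplex_apply_of_im_nonpos hw']

lemma ramanujanAux_tendsto_E2 : Tendsto E2 atImInfty (𝓝 1) := by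
  have h := ramanujanAux_tendsto ramanujanAux_periodic_E2 E2_mdifferentiable isBoundedAtImInfty_E2
  have han : AnalyticAt ℂ (cuspFunction 1 E2) 0 :=
    analyticAt_cuspFunction_zero one_pos ramanujanAux_periodic_E2 E2_mdifferentiable
      isBoundedAtImInfty_E2
  have hps := hasFPowerSeriesOnBall_cuspFunction (h := 1) (f := E2)
    (c := fun m : ℕ => (if m = 0 then 1 else -24 * (ArithmeticFunction.sigma 1 m : ℂ)))
    one_pos han (fun τ => by
      simpa only [Function.Periodic.qParam, Complex.ofReal_one, div_one] using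
        hasSum_qExpansion_E2 (z := τ))
  have h0 := hps.hasFPowerSeriesAt.coeff_zero (fun _ => (0 : ℂ))
  have h1 : (qExpansion 1 E2).coeff 0 = cuspFunction 1 E2 0 := by
    simp [qExpansion_coeff]
  rw [h1, ← h0] at h
  simpa [FormalMultilinearSeries.ofScalars] using h

lemma ramanujanAux_slash_MF {k : ℤ} (F : ModularForm 𝒮ℒ k) (γ : SL(2, ℤ)) :
    (F : ℍ → ℂ) ∣[k] γ = F :=
  SlashInvariantForm.slash_action_eqn F _ ⟨γ, rfl⟩

lemma ramanujanAux_serre_slash {k : ℤ} (F : ModularForm 𝒮ℒ k) (γ : SL(2, ℤ)) :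
    Derivative.serreDerivative k (F : ℍ → ℂ) ∣[k + 2] γ = Derivative.serreDerivative k F :=
  Derivative.serreDerivative_slash_invariant F.holo' (ramanujanAux_slash_MF F γ)

lemma ramanujanAux_serre_tendsto {k : ℤ} (F : ModularForm 𝒮ℒ k) :
    Tendsto (Derivative.serreDerivative k (F : ℍ → ℂ)) atImInfty
      (𝓝 (-((k : ℂ) * 12⁻¹ * (qExpansion 1 F).coeff 0))) := by
  have hD : Tendsto (D (F : ℍ → ℂ)) atImInfty (𝓝 0) :=
    ramanujanAux_isZeroAtImInfty_D (ramanujanAux_periodic_MF F) F.holo' (ramanujanAux_bdd_MF F)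
  have hF := ramanujanAux_tendsto_MF F
  have hE := ramanujanAux_tendsto_E2
  have h1 : Tendsto (fun z : ℍ => D (F : ℍ → ℂ) z - (k : ℂ) * 12⁻¹ * E2 z * F z) atImInfty
      (𝓝 (0 - (k : ℂ) * 12⁻¹ * 1 * (qExpansion 1 F).coeff 0)) :=
    hD.sub ((hE.const_mul _).mul hF)
  simpa using h1

/-- The Serre derivative of a level one modular form, as a modular form. -/
noncomputable def ramanujanAux_serreMF {k : ℤ} (F : ModularForm 𝒮ℒ k) (k' : ℤ) (hk : k + 2 = k') :
    ModularForm 𝒮ℒ k' where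
  toFun := Derivative.serreDerivative k F
  slash_action_eq' := by
    rintro _ ⟨γ, rfl⟩
    subst hk
    exact ramanujanAux_serre_slash F γ
  holo' := Derivative.serreDerivative_mdifferentiable k F.holo'
  bdd_at_cusps' {c} hc := by
    subst hk
    rw [OnePoint.isBoundedAt_iff_forall_SL2Z hc]
    intro γ _
    rw [ramanujanAux_serre_slash F γ]
    exact (ramanujanAux_serre_tendsto F).isBigO_one ℝ

@[simp] lemma ramanujanAux_serreMF_apply {k : ℤ} (F : ModularForm 𝒮ℒ k) (k' : ℤ)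
    (hk : k + 2 = k') (z : ℍ) :
    ramanujanAux_serreMF F k' hk z = D (F : ℍ → ℂ) z - (k : ℂ) * 12⁻¹ * E2 z * F z := rfl

lemma ramanujanAux_exists_smul {k : ℕ} (hk2 : Even k) (hk : ¬ k ≡ 2 [MOD 12]) (hk12 : k / 12 = 0)
    (G₀ : ModularForm 𝒮ℒ (k : ℤ)) (hG₀ : G₀ ≠ 0) (G : ModularForm 𝒮ℒ (k : ℤ)) :
    ∃ c : ℂ, c • G₀ = G := by
  have hrank := dimension_level_one k hk2
  rw [if_neg hk, hk12] at hrank
  have hfin : Module.finrank ℂ (ModularForm 𝒮ℒ (k : ℤ)) = 1 := by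
    have := congrArg Cardinal.toNat hrank
    simpa [Module.finrank] using this
  exact (finrank_eq_one_iff_of_nonzero' G₀ hG₀).mp hfin G

theorem ramanujan_E₄ : D (⇑E₄) = (3 : ℂ)⁻¹ • (E2 * ⇑E₄ - ⇑E₆) := by
  have hE6 : (E₆ : ModularForm 𝒮ℒ ((6 : ℕ) : ℤ)) ≠ 0 := E_ne_zero (by norm_num) (by decide)
  obtain ⟨c, hc⟩ := ramanujanAux_exists_smul (k := 6) (by decide) (by decide) (by norm_num) E₆ hE6
    (ramanujanAux_serreMF E₄ ((6 : ℕ) : ℤ) (by norm_num))
  have hpt : ∀ z : ℍ, c * E₆ z = D (⇑E₄) z - ((4 : ℕ) : ℂ) * 12⁻¹ * E2 z * E₄ z := by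
    intro z
    have := congrArg (fun f : ModularForm 𝒮ℒ ((6 : ℕ) : ℤ) => f z) hc
    simpa using this
  have hlim1 : Tendsto (fun z : ℍ => c * E₆ z) atImInfty (𝓝 (c * 1)) :=
    (ramanujanAux_tendsto_E (k := 6) (by norm_num) (by decide)).const_mul c
  have hlim2 := ramanujanAux_serre_tendsto E₄
  rw [E_qExpansion_coeff_zero (by norm_num) (by decide)] at hlim2
  have hlim3 : Tendsto (fun z : ℍ => c * E₆ z) atImInfty
      (𝓝 (-((((4 : ℕ) : ℤ) : ℂ) * 12⁻¹ * 1))) := by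
    refine hlim2.congr fun z => ?_
    rw [hpt z]
    simp
  have hcval : c * 1 = -((((4 : ℕ) : ℤ) : ℂ) * 12⁻¹ * 1) := tendsto_nhds_unique hlim1 hlim3
  have hc3 : c = -(3 : ℂ)⁻¹ := by
    rw [mul_one] at hcval
    rw [hcval]
    norm_num
  ext z
  have h := hpt z
  rw [hc3] at h
  simp only [Pi.smul_apply, Pi.sub_apply, Pi.mul_apply, smul_eq_mul]
  have h' : D (⇑E₄) z = -(3 : ℂ)⁻¹ * E₆ z + ((4 : ℕ) : ℂ) * 12⁻¹ * E2 z * E₄ z := by
    rw [h]; ring
  rw [h']
  push_cast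
  ring

theorem ramanujan_E₆ : D (⇑E₆) = (2 : ℂ)⁻¹ • (E2 * ⇑E₆ - ⇑E₄ * ⇑E₄) := by
  let E₄sq : ModularForm 𝒮ℒ ((8 : ℕ) : ℤ) := ModularForm.mcast (by norm_num) (E₄.mul E₄)
  have hE₄sq_apply : ∀ z : ℍ, E₄sq z = E₄ z * E₄ z := fun z => rfl
  have hE4lim := ramanujanAux_tendsto_E (k := 4) (by norm_num) (by decide)
  have hsqlim : Tendsto (fun z : ℍ => E₄sq z) atImInfty (𝓝 (1 * 1)) := by
    simp only [hE₄sq_apply]
    exact hE4lim.mul hE4lim
  have hne : E₄sq ≠ 0 := by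
    intro h0
    have h1 : Tendsto (fun z : ℍ => E₄sq z) atImInfty (𝓝 0) := by
      rw [h0]
      simp
    have := tendsto_nhds_unique hsqlim h1
    norm_num at this
  obtain ⟨c, hc⟩ := ramanujanAux_exists_smul (k := 8) (by decide) (by decide) (by norm_num)
    E₄sq hne (ramanujanAux_serreMF E₆ ((8 : ℕ) : ℤ) (by norm_num))
  have hpt : ∀ z : ℍ, c * (E₄ z * E₄ z) = D (⇑E₆) z - ((6 : ℕ) : ℂ) * 12⁻¹ * E2 z * E₆ z := by
    intro z
    have := congrArg (fun f : ModularForm 𝒮ℒ ((8 : ℕ) : ℤ) => f z) hc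
    simpa [hE₄sq_apply] using this
  have hlim1 : Tendsto (fun z : ℍ => c * (E₄ z * E₄ z)) atImInfty (𝓝 (c * (1 * 1))) :=
    (hE4lim.mul hE4lim).const_mul c
  have hlim2 := ramanujanAux_serre_tendsto E₆
  rw [E_qExpansion_coeff_zero (by norm_num) (by decide)] at hlim2
  have hlim3 : Tendsto (fun z : ℍ => c * (E₄ z * E₄ z)) atImInfty
      (𝓝 (-((((6 : ℕ) : ℤ) : ℂ) * 12⁻¹ * 1))) := by
    refine hlim2.congr fun z => ?_
    rw [hpt z]
    simp
  have hcval : c * (1 * 1) = -((((6 : ℕ) : ℤ) : ℂ) * 12⁻¹ * 1) := tendsto_nhds_unique hlim1 hlim3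
  have hc2 : c = -(2 : ℂ)⁻¹ := by
    rw [mul_one, mul_one] at hcval
    rw [hcval]
    norm_num
  ext z
  have h := hpt z
  rw [hc2] at h
  simp only [Pi.smul_apply, Pi.sub_apply, Pi.mul_apply, smul_eq_mul]
  have h' : D (⇑E₆) z = -(2 : ℂ)⁻¹ * (E₄ z * E₄ z) + ((6 : ℕ) : ℂ) * 12⁻¹ * E2 z * E₆ z := by
    rw [h]; ring
  rw [h']
  push_cast
  ring

theorem ramanujan_discriminant : D ModularForm.discriminant = E2 * ModularForm.discriminant := by
  ext z
  simp only [Derivative.normalizedDerivOfComplex, Pi.mul_apply]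
  have h1 : (ModularForm.discriminant ∘ ofComplex) =ᶠ[nhds (z : ℂ)]
      fun w => (ModularForm.eta w) ^ 24 := by
    filter_upwards [isOpen_upperHalfPlaneSet.mem_nhds z.im_pos] with w hw
    simp [ModularForm.discriminant, ofComplex_apply_of_im_pos hw]
  rw [h1.deriv_eq]
  have hd : DifferentiableAt ℂ ModularForm.eta (z : ℂ) :=
    ModularForm.differentiableAt_eta_of_mem_upperHalfPlaneSet z.2
  have hne : ModularForm.eta (z : ℂ) ≠ 0 := ModularForm.eta_ne_zero z.2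
  have hlog := ModularForm.logDeriv_eta_eq_E2 z
  rw [logDeriv_apply, div_eq_iff hne] at hlog
  rw [deriv_fun_pow hd, hlog]
  simp only [ModularForm.discriminant]
  have hpi : (2 * (Real.pi : ℂ) * Complex.I) ≠ 0 := by
    simp [Real.pi_ne_zero]
  field_simp
  ring

end Fermat.Agent.S20
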