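/-
S20: basic definitions. Unbundled modular forms of level `Γ₀(N)`.
-/
import Mathlib.NumberTheory.ModularForms.LevelOne.DimensionFormula
import Mathlib.NumberTheory.ModularForms.NormTrace
import Mathlib.NumberTheory.ModularForms.CongruenceSubgroups

set_option autoImplicit false

namespace Fermat.Agent.S20

open UpperHalfPlane ModularForm CongruenceSubgroup
open scoped MatrixGroups ModularForm Manifold

/-- `f` is (the underlying function of) a modular form of weight `k` for `Γ₀(N)`. -/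
structure IsMF (N : ℕ) (k : ℤ) (f : ℍ → ℂ) : Prop where
  holo : MDiff f
  slash : ∀ γ ∈ Gamma0 N, f ∣[k] γ = f
  bdd : ∀ γ : SL(2, ℤ), IsBoundedAtImInfty (f ∣[k] γ)

/-- `f` is (the underlying function of) a cusp form of weight `k` for `Γ₀(N)`. -/
structure IsCF (N : ℕ) (k : ℤ) (f : ℍ → ℂ) : Prop where
  holo : MDiff f
  slash : ∀ γ ∈ Gamma0 N, f ∣[k] γ = f
  zero : ∀ γ : SL(2, ℤ), IsZeroAtImInfty (f ∣[k] γ)

variable {N : ℕ} {k : ℤ} {f : ℍ → ℂ}

lemma IsCF.isMF (h : IsCF N k f) : IsMF N k f :=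
  ⟨h.holo, h.slash, fun γ => (h.zero γ).boundedAtFilter⟩

section bundled

variable [NeZero N]

lemma isMF_coe (F : ModularForm (Gamma0 N) k) : IsMF N k F where
  holo := F.holo'
  slash γ hγ := SlashInvariantForm.slash_action_eqn F _ ⟨γ, hγ, rfl⟩
  bdd γ := ModularFormClass.bdd_at_infty_slash F γ

lemma isCF_coe (F : CuspForm (Gamma0 N) k) : IsCF N k F where
  holo := F.holo'
  slash γ hγ := SlashInvariantForm.slash_action_eqn F _ ⟨γ, hγ, rfl⟩
  zero γ := CuspFormClass.zero_at_infty_slash F γ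

/-- Bundle an unbundled modular form. -/
noncomputable def IsMF.toMF (h : IsMF N k f) : ModularForm (Gamma0 N) k where
  toFun := f
  slash_action_eq' := by
    rintro _ ⟨γ, hγ, rfl⟩
    exact h.slash γ hγ
  holo' := h.holo
  bdd_at_cusps' {c} hc := by
    rw [Subgroup.IsArithmetic.isCusp_iff_isCusp_SL2Z] at hc
    rw [OnePoint.isBoundedAt_iff_forall_SL2Z hc]
    exact fun γ _ => h.bdd γ

@[simp] lemma IsMF.coe_toMF (h : IsMF N k f) : ⇑h.toMF = f := rfl

/-- Bundle an unbundled cusp form. -/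
noncomputable def IsCF.toCF (h : IsCF N k f) : CuspForm (Gamma0 N) k where
  toFun := f
  slash_action_eq' := by
    rintro _ ⟨γ, hγ, rfl⟩
    exact h.slash γ hγ
  holo' := h.holo
  zero_at_cusps' {c} hc := by
    rw [Subgroup.IsArithmetic.isCusp_iff_isCusp_SL2Z] at hc
    rw [OnePoint.isZeroAt_iff_forall_SL2Z hc]
    exact fun γ _ => h.zero γ

@[simp] lemma IsCF.coe_toCF (h : IsCF N k f) : ⇑h.toCF = f := rfl

end bundled

end Fermat.Agent.S20
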