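/-
S20, component (E-abs): dimensions of eigenspaces of a permutation of order 2 or 3 acting on functions.
Pure linear algebra.  Hint: `p = (1 + ε⁻¹ σ^* + ...)/m` is a projection onto the eigenspace, the trace of a projection is
the dimension of its range (`LinearMap.IsProj.trace`), and the trace of a permutation operator is its number of
fixed points.
-/
import Mathlib.LinearAlgebra.Trace
import Mathlib.LinearAlgebra.Matrix.Permutation
import Mathlib.Analysis.Complex.Basic

set_option autoImplicit false

namespace Fermat.Agent.S20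

variable {X : Type} [Fintype X] [DecidableEq X]

/-- the `ε`-eigenspace of `v ↦ v ∘ σ` on `X → ℂ`. -/
def permEigen (σ : Equiv.Perm X) (ε : ℂ) : Submodule ℂ (X → ℂ) where
  carrier := {v | ∀ x, v (σ x) = ε * v x}
  add_mem' := by
    intro a b ha hb x
    simp only [Set.mem_ofPred_eq] at ha hb
    simp [ha x, hb x, mul_add]
  zero_mem' := by intro x; simp
  smul_mem' := by
    intro c a ha x
    simp only [Set.mem_ofPred_eq] at ha
    simp [ha x, mul_left_comm]

namespace PermEigenAux

/-- pull-back along a permutation, as a linear map. -/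
noncomputable def pull (σ : Equiv.Perm X) : (X → ℂ) →ₗ[ℂ] (X → ℂ) :=
  LinearMap.funLeft ℂ ℂ σ

omit [Fintype X] [DecidableEq X] in
@[simp] lemma pull_apply (σ : Equiv.Perm X) (v : X → ℂ) (x : X) : pull σ v x = v (σ x) := rfl

omit [Fintype X] [DecidableEq X] in
lemma mem_permEigen {σ : Equiv.Perm X} {ε : ℂ} {v : X → ℂ} :
    v ∈ permEigen σ ε ↔ ∀ x, v (σ x) = ε * v x := Iff.rfl

lemma trace_pull (σ : Equiv.Perm X) :
    LinearMap.trace ℂ (X → ℂ) (pull σ) = (Fintype.card {x : X // σ x = x} : ℂ) := by
  rw [LinearMap.trace_eq_matrix_trace ℂ (Pi.basisFun ℂ X), Matrix.trace]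
  simp only [Matrix.diag_apply, LinearMap.toMatrix_apply, Pi.basisFun_apply, Pi.basisFun_repr,
    pull_apply, Pi.single_apply]
  rw [Finset.sum_boole, Fintype.card_subtype]

omit [DecidableEq X] in
/-- trace of a projection onto `p` is the dimension of `p`. -/
lemma trace_of_isProj {p : Submodule ℂ (X → ℂ)} {f : (X → ℂ) →ₗ[ℂ] (X → ℂ)}
    (h : LinearMap.IsProj p f) :
    LinearMap.trace ℂ (X → ℂ) f = (Module.finrank ℂ p : ℂ) :=
  h.trace

omit [Fintype X] [DecidableEq X] in
lemma isProj_two (σ : Equiv.Perm X) (hσ : σ * σ = 1) (ε : ℂ) (hε : ε * ε = 1) :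
    LinearMap.IsProj (permEigen σ ε)
      ((2 : ℂ)⁻¹ • ((LinearMap.id : (X → ℂ) →ₗ[ℂ] (X → ℂ)) + ε • pull σ)) := by
  have hσx : ∀ x, σ (σ x) = x := fun x => by
    have := congrArg (fun τ : Equiv.Perm X => τ x) hσ
    simpa using this
  constructor
  · intro v x
    simp only [LinearMap.smul_apply, LinearMap.add_apply, LinearMap.id_coe, id_eq, Pi.smul_apply,
      Pi.add_apply, pull_apply, smul_eq_mul, hσx]
    linear_combination (-(2 : ℂ)⁻¹ * v (σ x)) * hε
  · intro v hv
    ext x
    have hvx := hv x
    simp only [LinearMap.smul_apply, LinearMap.add_apply, LinearMap.id_coe, id_eq, Pi.smul_apply,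
      Pi.add_apply, pull_apply, smul_eq_mul, hvx]
    linear_combination (2 : ℂ)⁻¹ * v x * hε

omit [Fintype X] [DecidableEq X] in
lemma isProj_three (σ : Equiv.Perm X) (hσ : σ * σ * σ = 1) (ε : ℂ) (hε : ε * ε * ε = 1) :
    LinearMap.IsProj (permEigen σ ε)
      ((3 : ℂ)⁻¹ • ((LinearMap.id : (X → ℂ) →ₗ[ℂ] (X → ℂ)) + (ε * ε) • pull σ
        + ε • pull (σ * σ))) := by
  have hσx : ∀ x, σ (σ (σ x)) = x := fun x => by
    have := congrArg (fun τ : Equiv.Perm X => τ x) hσ
    simpa using this
  constructor
  · intro v x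
    simp only [LinearMap.smul_apply, LinearMap.add_apply, LinearMap.id_coe, id_eq, Pi.smul_apply,
      Pi.add_apply, pull_apply, smul_eq_mul, Equiv.Perm.coe_mul, Function.comp_apply, hσx]
    linear_combination (-(3 : ℂ)⁻¹ * v (σ x)) * hε
  · intro v hv
    ext x
    have hvx := hv x
    have hvx2 := hv (σ x)
    simp only [LinearMap.smul_apply, LinearMap.add_apply, LinearMap.id_coe, id_eq, Pi.smul_apply,
      Pi.add_apply, pull_apply, smul_eq_mul, Equiv.Perm.coe_mul, Function.comp_apply, hvx2, hvx]
    linear_combination (3 : ℂ)⁻¹ * v x * (2 : ℂ) * hε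

lemma card_fix_sq (σ : Equiv.Perm X) (hσ : σ * σ * σ = 1) :
    Fintype.card {x : X // (σ * σ) x = x} = Fintype.card {x : X // σ x = x} := by
  have hσx : ∀ x, σ (σ (σ x)) = x := fun x => by
    have := congrArg (fun τ : Equiv.Perm X => τ x) hσ
    simpa using this
  refine Fintype.card_congr (Equiv.subtypeEquivRight fun x => ?_)
  simp only [Equiv.Perm.coe_mul, Function.comp_apply]
  constructor
  · intro h
    have := congrArg σ h
    rw [hσx] at this
    exact this.symm
  · intro h
    rw [h, h]

end PermEigenAux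

open PermEigenAux

theorem finrank_permEigen_two_one (σ : Equiv.Perm X) (hσ : σ * σ = 1) :
    2 * Module.finrank ℂ (permEigen σ 1) =
      Fintype.card X + Fintype.card {x : X // σ x = x} := by
  have h := trace_of_isProj (isProj_two σ hσ 1 (by norm_num))
  simp only [map_smul, map_add, one_smul, trace_pull, smul_eq_mul, LinearMap.trace_id,
    Module.finrank_fintype_fun_eq_card] at h
  have h2 : ((2 * Module.finrank ℂ (permEigen σ 1) : ℕ) : ℂ) =
      ((Fintype.card X + Fintype.card {x : X // σ x = x} : ℕ) : ℂ) := by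
    push_cast
    linear_combination (-2 : ℂ) * h
  exact_mod_cast h2

theorem finrank_permEigen_two_neg_one (σ : Equiv.Perm X) (hσ : σ * σ = 1) :
    2 * Module.finrank ℂ (permEigen σ (-1)) + Fintype.card {x : X // σ x = x} =
      Fintype.card X := by
  have h := trace_of_isProj (isProj_two σ hσ (-1) (by norm_num))
  simp only [map_smul, map_add, trace_pull, smul_eq_mul, LinearMap.trace_id,
    Module.finrank_fintype_fun_eq_card] at h
  have h2 : ((2 * Module.finrank ℂ (permEigen σ (-1)) + Fintype.card {x : X // σ x = x} : ℕ) : ℂ) =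
      ((Fintype.card X : ℕ) : ℂ) := by
    push_cast
    linear_combination (-2 : ℂ) * h
  exact_mod_cast h2

theorem finrank_permEigen_three_one (σ : Equiv.Perm X) (hσ : σ * σ * σ = 1) :
    3 * Module.finrank ℂ (permEigen σ 1) =
      Fintype.card X + 2 * Fintype.card {x : X // σ x = x} := by
  have h := trace_of_isProj (isProj_three σ hσ 1 (by norm_num))
  simp only [map_smul, map_add, one_smul, mul_one, trace_pull, smul_eq_mul, LinearMap.trace_id,
    Module.finrank_fintype_fun_eq_card, card_fix_sq σ hσ] at h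
  have h2 : ((3 * Module.finrank ℂ (permEigen σ 1) : ℕ) : ℂ) =
      ((Fintype.card X + 2 * Fintype.card {x : X // σ x = x} : ℕ) : ℂ) := by
    push_cast
    linear_combination (-3 : ℂ) * h
  exact_mod_cast h2

theorem finrank_permEigen_three_omega (σ : Equiv.Perm X) (hσ : σ * σ * σ = 1) (ω : ℂ)
    (hω : ω ^ 2 + ω + 1 = 0) :
    3 * Module.finrank ℂ (permEigen σ ω) + Fintype.card {x : X // σ x = x} =
      Fintype.card X := by
  have hω3 : ω * ω * ω = 1 := by linear_combination (ω - 1) * hω
  have h := trace_of_isProj (isProj_three σ hσ ω hω3)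
  simp only [map_smul, map_add, trace_pull, smul_eq_mul, LinearMap.trace_id,
    Module.finrank_fintype_fun_eq_card, card_fix_sq σ hσ] at h
  have h2 : ((3 * Module.finrank ℂ (permEigen σ ω) + Fintype.card {x : X // σ x = x} : ℕ) : ℂ) =
      ((Fintype.card X : ℕ) : ℂ) := by
    push_cast
    linear_combination (-3 : ℂ) * h + (Fintype.card {x : X // σ x = x} : ℂ) * hω
  exact_mod_cast h2

end Fermat.Agent.S20
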